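/-
Cluster B, KRONECKER, algebraic half of PROD (helper42): abstract Galois theory.

* `norm_eq_prod_of_injective` : the norm is the product over a complete list of embeddings.
* `finrank_mul_index_eq_index` : for a Galois datum `(Γ, L, K(t))` and intermediate fields
  `F ⊆ F'` with pointwise stabilisers `H ⊇ H'`, `[F' : F] · [Γ : H] = [Γ : H']`.
* `algebraMap_norm_eq_prod_smul` : `Norm_{F'/F} x = ∏ᵢ gᵢ • x` for elements `gᵢ ∈ H` inducing
  `≥ [F' : F]` pairwise distinct embeddings of `F'`.
-/
import Mathlib
import Fermat.Agent.MUL.Orig.S24.GaloisDatum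
import Fermat.Agent.MUL.Orig.F3.Galois.TorsionReduce

set_option autoImplicit false

noncomputable section

open IntermediateField

namespace Fermat.Agent.Kronecker

/-- The norm as a product over a complete list of embeddings in an algebraically closed field. -/
theorem norm_eq_prod_of_injective {F F' E ι : Type*} [Field F] [Field F'] [Field E]
    [Algebra F F'] [Algebra F E] [IsAlgClosed E] [FiniteDimensional F F']
    [Algebra.IsSeparable F F'] [Fintype ι] (σ : ι → (F' →ₐ[F] E))
    (hinj : Function.Injective σ) (hcard : Module.finrank F F' ≤ Fintype.card ι) (x : F') :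
    algebraMap F E (Algebra.norm F x) = ∏ i, σ i x := by
  classical
  rw [Algebra.norm_eq_prod_embeddings F E x]
  have hbij : Function.Bijective σ := by
    rw [Fintype.bijective_iff_injective_and_card]
    refine ⟨hinj, le_antisymm (Fintype.card_le_of_injective σ hinj) ?_⟩
    rw [AlgHom.card F F' E]
    exact hcard
  exact (Fintype.prod_bijective σ hbij _ _ (fun _ => rfl)).symm

section Datum

open Fermat.Agent.S24Gal

variable {Γ L K F F' : Type*} [Group Γ] [Field L] [MulSemiringAction Γ L]
  [Field K] [Field F] [Field F'] [Algebra K F] [Algebra K L] [Algebra F L] [Algebra F' L]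
  [Algebra F F'] [IsScalarTower K F L] [IsScalarTower F F' L] [SMulCommClass Γ K L]

/-- `[F' : F] · [Γ : H] = [Γ : H']` for the pointwise stabilisers `H`, `H'` of `F ⊆ F'`. -/
theorem finrank_mul_index_eq_index (t : F)
    (hfin : ∃ Γ' : Subgroup Γ, Γ'.FiniteIndex ∧ ∀ g ∈ Γ', ∀ x : L, g • x = x)
    (ht : ∀ g : Γ, g • algebraMap F L t = algebraMap F L t)
    (hfix : ∀ x : L, (∀ g : Γ, g • x = x) →
      x ∈ IntermediateField.adjoin K {algebraMap F L t})
    (H H' : Subgroup Γ)
    (hH : ∀ g : Γ, g ∈ H ↔ ∀ x : F, g • algebraMap F L x = algebraMap F L x)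
    (hH' : ∀ g : Γ, g ∈ H' ↔ ∀ x : F', g • algebraMap F' L x = algebraMap F' L x) :
    FiniteDimensional F F' ∧ Module.finrank F F' * H.index = H'.index := by
  haveI : Finite (imageGroup Γ L) := finite_imageGroup hfin
  have hG : IsGaloisGroup (imageGroup Γ L) K⟮t⟯ L := isGaloisGroup_imageGroup t ht hfix
  have hGF : IsGaloisGroup (fixF Γ L F) F L := IsGaloisGroup.of_isScalarTower _ K⟮t⟯ L F
  have hGF' : IsGaloisGroup (fixF Γ L F') F' L := IsGaloisGroup.of_isScalarTower _ K⟮t⟯ L F'
  haveI : FiniteDimensional F L := hGF.finiteDimensional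
  haveI : FiniteDimensional F' L := hGF'.finiteDimensional
  haveI : FiniteDimensional F F' := FiniteDimensional.left F F' L
  refine ⟨inferInstance, ?_⟩
  have c1 : Nat.card (fixF Γ L F) = Module.finrank F L := hGF.card_eq_finrank
  have c2 : Nat.card (fixF Γ L F') = Module.finrank F' L := hGF'.card_eq_finrank
  have i1 : (fixF Γ L F).index = H.index := index_fixF H hH
  have i2 : (fixF Γ L F').index = H'.index := index_fixF H' hH'
  have m1 := (fixF Γ L F).card_mul_index
  have m2 := (fixF Γ L F').card_mul_index
  have tw : Module.finrank F F' * Module.finrank F' L = Module.finrank F L :=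
    Module.finrank_mul_finrank F F' L
  have hpos : 0 < Module.finrank F' L := Module.finrank_pos
  rw [c1, i1] at m1
  rw [c2, i2] at m2
  have key : Module.finrank F' L * (Module.finrank F F' * H.index)
      = Module.finrank F' L * H'.index := by
    rw [m2, ← m1, ← tw]
    ring
  exact Nat.eq_of_mul_eq_mul_left hpos key

/-- The embedding `x ↦ g • x` of `F'` in an algebraic closure of `L`, for `g` fixing `F`. -/
def smulEmb (g : Γ) (hg : ∀ x : F, g • algebraMap F L x = algebraMap F L x) :
    F' →ₐ[F] AlgebraicClosure L where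
  toRingHom := (algebraMap L (AlgebraicClosure L)).comp
    ((MulSemiringAction.toRingHom Γ L g).comp (algebraMap F' L))
  commutes' x := by
    show algebraMap L (AlgebraicClosure L) (g • algebraMap F' L (algebraMap F F' x))
      = algebraMap F (AlgebraicClosure L) x
    rw [← IsScalarTower.algebraMap_apply F F' L, hg,
      ← IsScalarTower.algebraMap_apply F L (AlgebraicClosure L)]

theorem smulEmb_apply (g : Γ) (hg : ∀ x : F, g • algebraMap F L x = algebraMap F L x)
    (x : F') :
    smulEmb (F' := F') g hg x = algebraMap L (AlgebraicClosure L) (g • algebraMap F' L x) :=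
  rfl

/-- **Abstract PROD**: if `gᵢ` (`i ∈ ι`) fix `F` pointwise, induce pairwise distinct maps on `F'`,
and `[F' : F] ≤ #ι`, then `Norm_{F'/F} x = ∏ᵢ gᵢ • x` (inside `L`). -/
theorem algebraMap_norm_eq_prod_smul [FiniteDimensional F F'] [Algebra.IsSeparable F F']
    {ι : Type*} [Fintype ι] (g : ι → Γ)
    (hg : ∀ i, ∀ x : F, g i • algebraMap F L x = algebraMap F L x)
    (hdist : ∀ i j, (∀ x : F', g i • algebraMap F' L x = g j • algebraMap F' L x) → i = j)
    (hcard : Module.finrank F F' ≤ Fintype.card ι) (x : F') :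
    algebraMap F L (Algebra.norm F x) = ∏ i, g i • algebraMap F' L x := by
  have hinj : Function.Injective (fun i => smulEmb (F' := F') (g i) (hg i)) := by
    intro i j hij
    refine hdist i j fun x => ?_
    have h := congrArg (fun σ : F' →ₐ[F] AlgebraicClosure L => σ x) hij
    simp only [smulEmb_apply] at h
    exact (algebraMap L (AlgebraicClosure L)).injective h
  have h := norm_eq_prod_of_injective (fun i => smulEmb (F' := F') (g i) (hg i)) hinj hcard x
  apply (algebraMap L (AlgebraicClosure L)).injective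
  rw [← IsScalarTower.algebraMap_apply F L (AlgebraicClosure L), h, map_prod]
  rfl

end Datum

/-! ### Hom form (all algebra structures are given by explicit homomorphisms) -/

section HomForm

open Fermat.Agent.S24Gal

variable {Γ L K F F' : Type*} [Group Γ] [Field L] [MulSemiringAction Γ L]
  [Field K] [Field F] [Field F'] [Algebra K F] [Algebra K F'] [Algebra K L]
  [SMulCommClass Γ K L]
variable (φ : F →ₐ[K] L) (φ' : F' →ₐ[K] L) (α : F →ₐ[K] F')

/-- Hom form of `finrank_mul_index_eq_index`. -/
theorem finrank_hom_mul_index_eq_index (hα : ∀ x, φ' (α x) = φ x) (t : F)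
    (hfin : ∃ Γ' : Subgroup Γ, Γ'.FiniteIndex ∧ ∀ g ∈ Γ', ∀ x : L, g • x = x)
    (ht : ∀ g : Γ, g • φ t = φ t)
    (hfix : ∀ x : L, (∀ g : Γ, g • x = x) → x ∈ IntermediateField.adjoin K {φ t})
    (H H' : Subgroup Γ)
    (hH : ∀ g : Γ, g ∈ H ↔ ∀ x : F, g • φ x = φ x)
    (hH' : ∀ g : Γ, g ∈ H' ↔ ∀ x : F', g • φ' x = φ' x) :
    letI := α.toRingHom.toAlgebra
    FiniteDimensional F F' ∧ Module.finrank F F' * H.index = H'.index := by
  letI := α.toRingHom.toAlgebra
  letI := φ.toRingHom.toAlgebra
  letI := φ'.toRingHom.toAlgebra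
  haveI : IsScalarTower K F L := IsScalarTower.of_algebraMap_eq fun a => (φ.commutes a).symm
  haveI : IsScalarTower F F' L := IsScalarTower.of_algebraMap_eq fun x => (hα x).symm
  exact finrank_mul_index_eq_index (Γ := Γ) (L := L) (K := K) (F := F) (F' := F')
    t hfin ht hfix H H' hH hH'

omit [SMulCommClass Γ K L] in
/-- Hom form of `algebraMap_norm_eq_prod_smul` (characteristic zero). -/
theorem norm_hom_eq_prod_smul [CharZero K] (hα : ∀ x, φ' (α x) = φ x)
    (hfd : letI := α.toRingHom.toAlgebra; FiniteDimensional F F')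
    {ι : Type*} [Fintype ι] (g : ι → Γ)
    (hg : ∀ i, ∀ x : F, g i • φ x = φ x)
    (hdist : ∀ i j, (∀ x : F', g i • φ' x = g j • φ' x) → i = j)
    (hcard : (letI := α.toRingHom.toAlgebra; Module.finrank F F') ≤ Fintype.card ι)
    (x : F') :
    φ ((letI := α.toRingHom.toAlgebra; Algebra.norm F) x) = ∏ i, g i • φ' x := by
  letI := α.toRingHom.toAlgebra
  letI := φ.toRingHom.toAlgebra
  letI := φ'.toRingHom.toAlgebra
  haveI : IsScalarTower F F' L := IsScalarTower.of_algebraMap_eq fun x => (hα x).symm
  haveI : FiniteDimensional F F' := hfd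
  haveI : CharZero F := charZero_of_injective_algebraMap (algebraMap K F).injective
  haveI : Algebra.IsSeparable F F' := inferInstance
  exact algebraMap_norm_eq_prod_smul (Γ := Γ) (L := L) (F := F) (F' := F') g hg hdist hcard x

end HomForm

end Fermat.Agent.Kronecker
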